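/-
S26 (torsion of abelian varieties), shared DEFINITIONS.   Owner: helper86.   FROZEN INTERFACE.

Route P ("Pontryagin degrees"), see report #1511.
* `AbVar K`        : the data of the frozen statement, bundled
* `𝔸.Pt t`         : the commutative group `A(T)` of `T`-valued points
* `Pt.comp`        : pull-back of points (a group homomorphism)
* `Curve 𝔸`        : a pointed smooth proper integral curve with a pointed morphism to `A`
* `Based 𝔸`        : a pointed proper integral `K`-scheme with a morphism to `A`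
* `Curve.cons C m B` : `Γ × W` with the morphism `(x, w) ↦ m ι(x) + τ(w)`
* `gdeg φ`         : the degree of the function field extension (0 if not dominant / infinite)
* `EtaleAt φ y`    : `φ` is etale in a neighbourhood of `y`
-/
import Fermat.Statements.S26

set_option autoImplicit false

universe u

open CategoryTheory CategoryTheory.Limits AlgebraicGeometry NeronModelInfra GoodReductionJacobian

namespace Fermat.Agent.S26

/-- The base scheme. -/
noncomputable abbrev SK (K : Type u) [Field K] : Scheme.{u} := Spec (CommRingCat.of K)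

/-- The data of the frozen statement. -/
structure AbVar (K : Type u) [Field K] where
  A : Scheme.{u}
  f : A ⟶ SK K
  L : RelativeGroupLaw K f
  comm : L.IsCommutative
  [proper : IsProper f]
  [smooth : Smooth f]
  [int : IsIntegral A]

attribute [instance] AbVar.proper AbVar.smooth AbVar.int

variable {K : Type u} [Field K]

namespace AbVar

variable (𝔸 : AbVar K)

/-- `T`-valued points of `A`. -/
def Pt {T : Scheme.{u}} (t : T ⟶ SK K) : Type u := SchemeHomOver t 𝔸.f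

noncomputable instance {T : Scheme.{u}} (t : T ⟶ SK K) : CommGroup (𝔸.Pt t) :=
  { 𝔸.L.pointGroup t with mul_comm := fun x y => 𝔸.comm t x y }

/-- the underlying morphism of a point -/
def Pt.hom {𝔸 : AbVar K} {T : Scheme.{u}} {t : T ⟶ SK K} (x : 𝔸.Pt t) : T ⟶ 𝔸.A := x.1

theorem Pt.hom_f {𝔸 : AbVar K} {T : Scheme.{u}} {t : T ⟶ SK K} (x : 𝔸.Pt t) :
    x.hom ≫ 𝔸.f = t := x.2

/-- a point from a morphism -/
def Pt.mk {𝔸 : AbVar K} {T : Scheme.{u}} {t : T ⟶ SK K} (φ : T ⟶ 𝔸.A) (h : φ ≫ 𝔸.f = t) :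
    𝔸.Pt t := ⟨φ, h⟩

@[ext] theorem Pt.ext {𝔸 : AbVar K} {T : Scheme.{u}} {t : T ⟶ SK K} {x y : 𝔸.Pt t}
    (h : x.hom = y.hom) : x = y := Subtype.ext h

theorem Pt.mul_def {T : Scheme.{u}} (t : T ⟶ SK K) (x y : 𝔸.Pt t) : x * y = 𝔸.L.mul t x y := rfl
theorem Pt.one_def {T : Scheme.{u}} (t : T ⟶ SK K) : (1 : 𝔸.Pt t) = 𝔸.L.one t := rfl
theorem Pt.inv_def {T : Scheme.{u}} (t : T ⟶ SK K) (x : 𝔸.Pt t) : x⁻¹ = 𝔸.L.inv t x := rfl

/-- Pull-back of points along `ψ : T' ⟶ T`. -/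
noncomputable def Pt.comp {𝔸 : AbVar K} {T T' : Scheme.{u}} {t : T ⟶ SK K} {t' : T' ⟶ SK K}
    (ψ : T' ⟶ T) (hψ : ψ ≫ t = t') : 𝔸.Pt t →* 𝔸.Pt t' where
  toFun x := schemeHomOverComp ψ hψ x
  map_one' := 𝔸.L.one_natural t t' ψ hψ
  map_mul' x y := 𝔸.L.mul_natural t t' ψ hψ x y

@[simp] theorem Pt.comp_hom {𝔸 : AbVar K} {T T' : Scheme.{u}} {t : T ⟶ SK K} {t' : T' ⟶ SK K}
    (ψ : T' ⟶ T) (hψ : ψ ≫ t = t') (x : 𝔸.Pt t) : (Pt.comp ψ hψ x).hom = ψ ≫ x.hom := rfl

/-- the identity point of `A(A)` -/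
def idPt : 𝔸.Pt 𝔸.f := ⟨𝟙 _, Category.id_comp _⟩

/-- multiplication by `m : ℤ` as a morphism -/
noncomputable def zmul (m : ℤ) : 𝔸.A ⟶ 𝔸.A := (𝔸.idPt ^ m).hom

/-- `K`-points -/
abbrev KPt : Type u := 𝔸.Pt (𝟙 (SK K))

end AbVar

open AbVar

/-- A pointed smooth proper integral curve with a pointed morphism to `A`. -/
structure Curve (𝔸 : AbVar K) where
  Γ : Scheme.{u}
  c : Γ ⟶ SK K
  ε : SchemeHomOver (𝟙 (SK K)) c
  ι : 𝔸.Pt c
  [proper : IsProper c]
  [smooth : SmoothOfRelativeDimension 1 c]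
  [int : IsIntegral Γ]
  [geomInt : GeometricallyIntegral c]
  ι_ε : Pt.comp ε.1 ε.2 ι = 1

attribute [instance] Curve.proper Curve.smooth Curve.int Curve.geomInt

/-- A pointed proper integral `K`-scheme with a morphism to `A`. -/
structure Based (𝔸 : AbVar K) where
  W : Scheme.{u}
  w : W ⟶ SK K
  pt : SchemeHomOver (𝟙 (SK K)) w
  τ : 𝔸.Pt w
  [proper : IsProper w]
  [int : IsIntegral W]

attribute [instance] Based.proper Based.int

/-- `φ` is etale in a neighbourhood of `y`. -/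
def EtaleAt {X Y : Scheme.{u}} (φ : Y ⟶ X) (y : Y) : Prop :=
  ∃ U : Y.Opens, y ∈ U ∧ Etale (U.ι ≫ φ)

/-- the closed point of `Spec K` -/
noncomputable abbrev cpt (K : Type u) [Field K] : SK K := IsLocalRing.closedPoint K

/-- The map of function fields induced by a dominant morphism of integral schemes. -/
noncomputable def ffMap {X Y : Scheme.{u}} [IsIntegral X] [IsIntegral Y] (φ : Y ⟶ X)
    (h : φ (genericPoint Y) = genericPoint X) : X.functionField →+* Y.functionField :=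
  ((X.presheaf.stalkCongr (.of_eq h.symm)).hom ≫ φ.stalkMap (genericPoint Y)).hom

open Classical in
/-- The generic degree: `[K(Y) : K(X)]` if `φ` is dominant and the extension is finite,
`0` otherwise. -/
noncomputable def gdeg {X Y : Scheme.{u}} [IsIntegral X] [IsIntegral Y] (φ : Y ⟶ X) : ℕ :=
  if h : φ (genericPoint Y) = genericPoint X then
    @Module.finrank X.functionField Y.functionField _ _ (ffMap φ h).toAlgebra.toModule
  else 0

namespace Based

variable {𝔸 : AbVar K}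

/-- the base point, as a point of the underlying space -/
noncomputable def pt₀ (B : Based 𝔸) : B.W := B.pt.1 (cpt K)

/-- the generic degree of `τ : W ⟶ A` -/
noncomputable def deg (B : Based 𝔸) : ℕ := gdeg B.τ.hom

/-- `τ` is etale at the base point -/
def Good (B : Based 𝔸) : Prop := EtaleAt B.τ.hom B.pt₀

/-- replace `τ` by `N τ` -/
noncomputable def scale (N : ℤ) (B : Based 𝔸) : Based 𝔸 :=
  { B with τ := B.τ ^ N }

/-- the point `0 : Spec K ⟶ A` -/
noncomputable def point (𝔸 : AbVar K) : Based 𝔸 where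
  W := SK K
  w := 𝟙 _
  pt := ⟨𝟙 _, Category.id_comp _⟩
  τ := 1

end Based

namespace Curve

variable {𝔸 : AbVar K}

/-- `Γ × W` with the morphism `(x, w) ↦ m ι(x) + τ(w)`. -/
noncomputable def cons (C : Curve 𝔸) (m : ℤ) (B : Based 𝔸) : Based 𝔸 where
  W := pullback C.c B.w
  w := pullback.fst C.c B.w ≫ C.c
  pt := ⟨pullback.lift C.ε.1 B.pt.1 (by rw [C.ε.2, B.pt.2]), by
    rw [pullback.lift_fst_assoc, C.ε.2]⟩
  τ := (Pt.comp (pullback.fst C.c B.w) rfl C.ι) ^ m *
    Pt.comp (pullback.snd C.c B.w) pullback.condition.symm B.τ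
  int :=
    haveI : IsLocallyNoetherian B.W := LocallyOfFiniteType.isLocallyNoetherian B.w
    inferInstance

end Curve

/-- Isomorphisms of based schemes over `A`. -/
structure Based.Iso {𝔸 : AbVar K} (B B' : Based 𝔸) where
  e : B.W ≅ B'.W
  w : e.hom ≫ B'.w = B.w
  pt : B.pt.1 ≫ e.hom = B'.pt.1
  τ : e.hom ≫ B'.τ.hom = B.τ.hom

/-- All the morphisms `∑ mᵢ ιᵢ + τ` (`mᵢ ∈ 𝒰`) are etale at the base point. -/
def AllGood {𝔸 : AbVar K} (𝒰 : Set ℤ) : List (Curve 𝔸) → Based 𝔸 → Prop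
  | [], B => B.Good
  | C :: l, B => ∀ m ∈ 𝒰, AllGood 𝒰 l (C.cons m B)

theorem allGood_nil {𝔸 : AbVar K} (𝒰 : Set ℤ) (B : Based 𝔸) : AllGood 𝒰 [] B ↔ B.Good := by
  rw [AllGood]

theorem allGood_cons {𝔸 : AbVar K} (𝒰 : Set ℤ) (C : Curve 𝔸) (l : List (Curve 𝔸)) (B : Based 𝔸) :
    AllGood 𝒰 (C :: l) B ↔ ∀ m ∈ 𝒰, AllGood 𝒰 l (C.cons m B) := by
  rw [AllGood]

/-- `∑_{ε ∈ {±1}^l} deg (∑ N εᵢ ιᵢ + τ)`. -/
noncomputable def sumDeg {𝔸 : AbVar K} (N : ℤ) : List (Curve 𝔸) → Based 𝔸 → ℕ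
  | [], B => B.deg
  | C :: l, B => sumDeg N l (C.cons N B) + sumDeg N l (C.cons (-N) B)

theorem sumDeg_nil {𝔸 : AbVar K} (N : ℤ) (B : Based 𝔸) : sumDeg N [] B = B.deg := by
  rw [sumDeg]

theorem sumDeg_cons {𝔸 : AbVar K} (N : ℤ) (C : Curve 𝔸) (l : List (Curve 𝔸)) (B : Based 𝔸) :
    sumDeg N (C :: l) B = sumDeg N l (C.cons N B) + sumDeg N l (C.cons (-N) B) := by
  rw [sumDeg]

end Fermat.Agent.S26
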