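/-
S26: the NODES of the top-level reduction (statements only).   Owner: helper86.  FROZEN INTERFACE.
`Top.lean` proves the frozen statement from these propositions.
-/
import Fermat.Agent.S26.Defs

set_option autoImplicit false

universe u

open CategoryTheory CategoryTheory.Limits AlgebraicGeometry NeronModelInfra GoodReductionJacobian

namespace Fermat.Agent.S26

variable {K : Type u} [Field K]

/-- Node INT: an abelian variety is integral. -/
def IntNode (K : Type u) [Field K] : Prop :=
  ∀ {A : Scheme.{u}} (f : A ⟶ Spec (CommRingCat.of K)), AbelianSchemePropertyBundle K f →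
    IsIntegral A

/-- Node CURVES: `g` pointed curves whose cotangent functionals form a basis. -/
def CurvesNode (𝔸 : AbVar K) (g : ℕ) : Prop :=
  ∃ l : List (Curve 𝔸), l.length = g ∧ AllGood {m : ℤ | (m : K) ≠ 0} l (Based.point 𝔸)

/-- Node POS: etale at a point implies dominant of finite degree. -/
def PosNode (𝔸 : AbVar K) : Prop :=
  ∀ B : Based 𝔸, B.Good → 0 < B.deg

/-- Node QUAD: the quadratic law in one slot. -/
def QuadNode (𝔸 : AbVar K) : Prop :=
  ∀ (C : Curve 𝔸) (B : Based 𝔸) (N : ℕ), (N : K) ≠ 0 →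
    (∀ m : ℤ, (m : K) ≠ 0 → (C.cons m B).Good) →
    (C.cons N B).deg + (C.cons (-N) B).deg =
      N ^ 2 * ((C.cons 1 B).deg + (C.cons (-1) B).deg)

/-- Node SCALE: `deg (N τ) = #A[N] · deg τ`. -/
def ScaleNode (𝔸 : AbVar K) : Prop :=
  ∀ (B : Based 𝔸) (N : ℕ), (N : K) ≠ 0 → B.Good →
    (B.scale N).deg = Nat.card {x : 𝔸.KPt // x ^ N = 1} * B.deg

/-- Node ISO: formal properties of isomorphisms of based schemes. -/
structure IsoNode (𝔸 : AbVar K) : Prop where
  deg_eq : ∀ B B' : Based 𝔸, Nonempty (Based.Iso B B') → B.deg = B'.deg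
  good : ∀ B B' : Based 𝔸, Nonempty (Based.Iso B B') → B.Good → B'.Good
  cons : ∀ (C : Curve 𝔸) (m : ℤ) (B B' : Based 𝔸), Nonempty (Based.Iso B B') →
    Nonempty (Based.Iso (C.cons m B) (C.cons m B'))
  swap : ∀ (C C' : Curve 𝔸) (m m' : ℤ) (B : Based 𝔸),
    Nonempty (Based.Iso (C'.cons m' (C.cons m B)) (C.cons m (C'.cons m' B)))

end Fermat.Agent.S26
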