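/-
S26: the interface between block CURVES (producer, helper26) and block GOOD (consumer).
Owner: helper86.  FROZEN INTERFACE.
-/
import Fermat.Agent.S26.Nodes

set_option autoImplicit false

universe u

open CategoryTheory CategoryTheory.Limits AlgebraicGeometry NeronModelInfra GoodReductionJacobian

namespace Fermat.Agent.S26

variable {K : Type u} [Field K]

/-- the origin of `A`, as a point of the underlying space -/
noncomputable def AbVar.o (𝔸 : AbVar K) : 𝔸.A := (1 : 𝔸.KPt).hom (cpt K)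

/-- the marked point of a curve, as a point of the underlying space -/
noncomputable def Curve.x₀ {𝔸 : AbVar K} (C : Curve 𝔸) : C.Γ := C.ε.1 (cpt K)

/-- `g` pointed curves in `A` and local coordinates `t₁, …, t_g` at the origin such that
`ιᵢ^* tⱼ = 0` for `j ≠ i` and `ιᵢ^* tᵢ` is a uniformiser at the marked point. -/
structure CurveSystem (𝔸 : AbVar K) (g : ℕ) where
  C : Fin g → Curve 𝔸
  U : 𝔸.A.Opens
  hU : 𝔸.o ∈ U
  t : Fin g → Γ(𝔸.A, U)
  span_t : Ideal.span (Set.range fun j => 𝔸.A.presheaf.germ U 𝔸.o hU (t j)) =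
    IsLocalRing.maximalIdeal (𝔸.A.presheaf.stalk 𝔸.o)
  hx : ∀ i, (C i).x₀ ∈ (C i).ι.hom ⁻¹ᵁ U
  off : ∀ i j, j ≠ i →
    (C i).Γ.presheaf.germ ((C i).ι.hom ⁻¹ᵁ U) (C i).x₀ (hx i) ((C i).ι.hom.app U (t j)) = 0
  diag : ∀ i, Ideal.span
      {(C i).Γ.presheaf.germ ((C i).ι.hom ⁻¹ᵁ U) (C i).x₀ (hx i) ((C i).ι.hom.app U (t i))} =
    IsLocalRing.maximalIdeal ((C i).Γ.presheaf.stalk (C i).x₀)

/-- Export of block CURVES. -/
def SystemNode (𝔸 : AbVar K) (g : ℕ) : Prop := Nonempty (CurveSystem 𝔸 g)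

/-- Export 1 of block GOOD. -/
def GoodNode (𝔸 : AbVar K) (g : ℕ) : Prop := CurveSystem 𝔸 g → CurvesNode 𝔸 g

/-- Export 2 of block GOOD: multiplication by `N` is etale at the origin. -/
def ZmulEtaleNode (𝔸 : AbVar K) : Prop :=
  ∀ N : ℤ, (N : K) ≠ 0 → EtaleAt (𝔸.zmul N) 𝔸.o

end Fermat.Agent.S26
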