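/-
S26: exports of block DEG (degree theory) used by block QUAD.   Owner: helper86.  FROZEN INTERFACE.
-/
import Fermat.Agent.S26.System

set_option autoImplicit false

universe u

open CategoryTheory CategoryTheory.Limits AlgebraicGeometry NeronModelInfra GoodReductionJacobian

namespace Fermat.Agent.S26

variable {K : Type u} [Field K]

/-- The `K`-algebra structure on the global sections of a scheme over `Spec K`. -/
noncomputable def algΓ {T : Scheme.{u}} (t : T ⟶ SK K) : K →+* Γ(T, ⊤) :=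
  t.appTop.hom.comp (Scheme.ΓSpecIso (CommRingCat.of K)).inv.hom

/-- `dim_K Γ(T, 𝒪)` for a scheme over `Spec K`. -/
noncomputable def dimΓ {T : Scheme.{u}} (t : T ⟶ SK K) : ℕ :=
  @Module.finrank K Γ(T, ⊤) _ _ (algΓ t).toAlgebra.toModule

/-- `dim_K` of the coordinate ring of the scheme-theoretic fibre of `φ` over the `K`-point `a`. -/
noncomputable def fibDim {X Y : Scheme.{u}} (φ : Y ⟶ X) (a : SK K ⟶ X) : ℕ :=
  dimΓ (pullback.snd φ a)

/-- `φ` maps the generic point to the generic point. -/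
def Dom {X Y : Scheme.{u}} [IsIntegral X] [IsIntegral Y] (φ : Y ⟶ X) : Prop :=
  φ (genericPoint Y) = genericPoint X

/-- G1: the tower law. -/
def TowerNode : Prop :=
  ∀ {X Y Z : Scheme.{u}} [IsIntegral X] [IsIntegral Y] [IsIntegral Z] (ψ : Z ⟶ Y) (φ : Y ⟶ X),
    Dom ψ → Dom φ → gdeg (ψ ≫ φ) = gdeg ψ * gdeg φ

/-- G2: over a dense open the fibres of a proper generically finite morphism have
`dim_K 𝒪 = gdeg`. -/
def FibreNode (K : Type u) [Field K] : Prop :=
  ∀ {X Y : Scheme.{u}} [IsIntegral X] [IsIntegral Y] (x : X ⟶ SK K) [LocallyOfFiniteType x]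
    (φ : Y ⟶ X) [IsProper φ], 0 < gdeg φ →
    ∃ U : X.Opens, (U : Set X).Nonempty ∧
      ∀ a : SK K ⟶ X, a (cpt K) ∈ U → fibDim φ a = gdeg φ

/-- G3: if moreover `φ` is etale at some point, the fibres over a dense open have exactly `gdeg φ`
`K`-points. -/
def CountNode (K : Type u) [Field K] : Prop :=
  ∀ {X Y : Scheme.{u}} [IsIntegral X] [IsIntegral Y] (x : X ⟶ SK K) [LocallyOfFiniteType x]
    (φ : Y ⟶ X) [IsProper φ] (y : Y), EtaleAt φ y →
    ∃ U : X.Opens, (U : Set X).Nonempty ∧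
      ∀ a : SK K ⟶ X, a (cpt K) ∈ U → Nat.card {b : SK K ⟶ Y // b ≫ φ = a} = gdeg φ

/-- G4: etale at a point implies dominant of finite positive degree. -/
def EtalePosNode : Prop :=
  ∀ {X Y : Scheme.{u}} [IsIntegral X] [IsIntegral Y] (φ : Y ⟶ X) (y : Y), EtaleAt φ y →
    Dom φ ∧ 0 < gdeg φ

/-- G5: `K`-points are dense. -/
def DenseNode (K : Type u) [Field K] : Prop :=
  ∀ {X : Scheme.{u}} (x : X ⟶ SK K) [LocallyOfFiniteType x] (U : X.Opens), (U : Set X).Nonempty →
    ∃ a : SK K ⟶ X, a ≫ x = 𝟙 _ ∧ a (cpt K) ∈ U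

end Fermat.Agent.S26
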