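/-
S26: the frozen statement from the nodes of `Nodes.lean`.   Owner: helper86.
-/
import Fermat.Agent.S26.Nodes

set_option autoImplicit false

universe u

open CategoryTheory CategoryTheory.Limits AlgebraicGeometry NeronModelInfra GoodReductionJacobian

namespace Fermat.Agent.S26

variable {K : Type u} [Field K] {𝔸 : AbVar K}

/-- the set of admissible coefficients -/
def units (K : Type u) [Field K] : Set ℤ := {m : ℤ | (m : K) ≠ 0}

theorem one_mem_units : (1 : ℤ) ∈ units K := by simp [units]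
theorem neg_one_mem_units : (-1 : ℤ) ∈ units K := by simp [units]
theorem nat_mem_units {N : ℕ} (hN : (N : K) ≠ 0) : (N : ℤ) ∈ units K := by simpa [units] using hN
theorem neg_nat_mem_units {N : ℕ} (hN : (N : K) ≠ 0) : (-(N : ℤ)) ∈ units K := by
  simpa [units] using hN

theorem allGood_of_iso (hI : IsoNode 𝔸) (𝒰 : Set ℤ) (l : List (Curve 𝔸)) :
    ∀ B B' : Based 𝔸, Nonempty (Based.Iso B B') → AllGood 𝒰 l B → AllGood 𝒰 l B' := by
  induction l with
  | nil =>
    intro B B' h hB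
    rw [allGood_nil] at hB ⊢
    exact hI.good B B' h hB
  | cons C l ih =>
    intro B B' h hB
    rw [allGood_cons] at hB ⊢
    intro m hm
    exact ih _ _ (hI.cons C m B B' h) (hB m hm)

theorem sumDeg_pos (hP : PosNode 𝔸) (l : List (Curve 𝔸)) :
    ∀ B : Based 𝔸, AllGood (units K) l B → 0 < sumDeg 1 l B := by
  induction l with
  | nil =>
    intro B hB
    rw [allGood_nil] at hB
    rw [sumDeg_nil]
    exact hP B hB
  | cons C l ih =>
    intro B hB
    rw [allGood_cons] at hB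
    rw [sumDeg_cons]
    exact Nat.add_pos_left (ih _ (hB 1 one_mem_units)) _

/-- Claim B: the quadratic law survives the absorption of further curves. -/
theorem sumDeg_quad (hI : IsoNode 𝔸) (hQ : QuadNode 𝔸) (C : Curve 𝔸) (N : ℕ) (hN : (N : K) ≠ 0)
    (l : List (Curve 𝔸)) :
    ∀ (B B₁ B₂ B₃ B₄ : Based 𝔸), (∀ m ∈ units K, AllGood (units K) l (C.cons m B)) →
      Nonempty (Based.Iso B₁ (C.cons N B)) → Nonempty (Based.Iso B₂ (C.cons (-N) B)) →
      Nonempty (Based.Iso B₃ (C.cons 1 B)) → Nonempty (Based.Iso B₄ (C.cons (-1) B)) →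
      sumDeg 1 l B₁ + sumDeg 1 l B₂ = N ^ 2 * (sumDeg 1 l B₃ + sumDeg 1 l B₄) := by
  induction l with
  | nil =>
    intro B B₁ B₂ B₃ B₄ hG h₁ h₂ h₃ h₄
    simp only [sumDeg_nil]
    rw [hI.deg_eq _ _ h₁, hI.deg_eq _ _ h₂, hI.deg_eq _ _ h₃, hI.deg_eq _ _ h₄]
    exact hQ C B N hN fun m hm => (allGood_nil _ _).1 (hG m hm)
  | cons C' l ih =>
    intro B B₁ B₂ B₃ B₄ hG h₁ h₂ h₃ h₄
    simp only [sumDeg_cons]
    have key : ∀ e ∈ units K, ∀ (m : ℤ) (B' : Based 𝔸), Nonempty (Based.Iso B' (C.cons m B)) →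
        Nonempty (Based.Iso (C'.cons e B') (C.cons m (C'.cons e B))) := by
      intro e _ m B' h
      obtain ⟨i⟩ := hI.cons C' e _ _ h
      obtain ⟨j⟩ := hI.swap C C' m e B
      exact ⟨⟨i.e ≪≫ j.e, by simp [j.w, i.w], by
        rw [Iso.trans_hom, ← Category.assoc, i.pt, j.pt], by simp [j.τ, i.τ]⟩⟩
    have hG' : ∀ e ∈ units K, ∀ m ∈ units K, AllGood (units K) l (C.cons m (C'.cons e B)) := by
      intro e he m hm
      exact allGood_of_iso hI _ l _ _ (hI.swap C C' m e B) ((allGood_cons _ _ _ _).1 (hG m hm) e he)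
    have e1 := ih (C'.cons 1 B) _ _ _ _ (hG' 1 one_mem_units)
      (key 1 one_mem_units _ _ h₁) (key 1 one_mem_units _ _ h₂)
      (key 1 one_mem_units _ _ h₃) (key 1 one_mem_units _ _ h₄)
    have e2 := ih (C'.cons (-1) B) _ _ _ _ (hG' (-1) neg_one_mem_units)
      (key (-1) neg_one_mem_units _ _ h₁) (key (-1) neg_one_mem_units _ _ h₂)
      (key (-1) neg_one_mem_units _ _ h₃) (key (-1) neg_one_mem_units _ _ h₄)
    nlinarith [e1, e2]

/-- the identity isomorphism -/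
def Based.Iso.refl (B : Based 𝔸) : Based.Iso B B :=
  ⟨CategoryTheory.Iso.refl _, by simp, by simp, by simp⟩

/-- Claim A. -/
theorem sumDeg_eq_pow_mul (hI : IsoNode 𝔸) (hQ : QuadNode 𝔸) (N : ℕ) (hN : (N : K) ≠ 0)
    (l : List (Curve 𝔸)) :
    ∀ B : Based 𝔸, AllGood (units K) l B →
      sumDeg N l B = N ^ (2 * l.length) * sumDeg 1 l B := by
  induction l with
  | nil =>
    intro B _
    simp [sumDeg_nil]
  | cons C l ih =>
    intro B hB
    rw [allGood_cons] at hB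
    rw [sumDeg_cons, sumDeg_cons, ih _ (hB _ (nat_mem_units hN)), ih _ (hB _ (neg_nat_mem_units hN)),
      ← Nat.mul_add,
      sumDeg_quad hI hQ C N hN l B _ _ _ _ hB ⟨Based.Iso.refl _⟩ ⟨Based.Iso.refl _⟩
        ⟨Based.Iso.refl _⟩ ⟨Based.Iso.refl _⟩, List.length_cons]
    ring

theorem zpow_aux {G H : Type*} [CommGroup G] [CommGroup H] (φ : H →* G) (a : G) (τ : H)
    (N e : ℤ) : a ^ (N * e) * φ (τ ^ N) = (a ^ e * φ τ) ^ N := by
  rw [map_zpow, mul_zpow, ← zpow_mul, mul_comm e N]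

theorem cons_scale (C : Curve 𝔸) (N e : ℤ) (B : Based 𝔸) :
    C.cons (N * e) (B.scale N) = (C.cons e B).scale N := by
  simp only [Curve.cons, Based.scale]
  congr 1
  exact zpow_aux _ _ _ _ _

/-- Claim C. -/
theorem sumDeg_scale (hS : ScaleNode 𝔸) (N : ℕ) (hN : (N : K) ≠ 0) (l : List (Curve 𝔸)) :
    ∀ B : Based 𝔸, AllGood (units K) l B →
      sumDeg N l (B.scale N) = Nat.card {x : 𝔸.KPt // x ^ N = 1} * sumDeg 1 l B := by
  induction l with
  | nil =>
    intro B hB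
    rw [allGood_nil] at hB
    simp only [sumDeg_nil]
    exact hS B N hN hB
  | cons C l ih =>
    intro B hB
    rw [allGood_cons] at hB
    have h1 : C.cons (N : ℤ) (B.scale N) = (C.cons 1 B).scale N := by
      rw [← cons_scale, mul_one]
    have h2 : C.cons (-(N : ℤ)) (B.scale N) = (C.cons (-1) B).scale N := by
      rw [← cons_scale, mul_neg, mul_one]
    rw [sumDeg_cons, sumDeg_cons, h1, h2, ih _ (hB 1 one_mem_units),
      ih _ (hB (-1) neg_one_mem_units), Nat.mul_add]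

theorem point_scale (N : ℤ) : (Based.point 𝔸).scale N = Based.point 𝔸 := by
  simp only [Based.scale, Based.point]
  congr 1
  exact one_zpow N

/-- The count, in terms of `AbVar`. -/
theorem card_torsion (g : ℕ) (hC : CurvesNode 𝔸 g) (hP : PosNode 𝔸) (hQ : QuadNode 𝔸)
    (hS : ScaleNode 𝔸) (hI : IsoNode 𝔸) (N : ℕ) (hN : (N : K) ≠ 0) :
    Nat.card {x : 𝔸.KPt // x ^ N = 1} = N ^ (2 * g) := by
  obtain ⟨l, rfl, hl⟩ := hC
  have hl' : AllGood (units K) l (Based.point 𝔸) := hl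
  have h1 := sumDeg_eq_pow_mul hI hQ N hN l _ hl'
  have h2 := sumDeg_scale hS N hN l _ hl'
  rw [point_scale] at h2
  exact Nat.eq_of_mul_eq_mul_right (sumDeg_pos hP l _ hl') (h2.symm.trans h1)

theorem nsmul_eq_pow {T : Scheme.{u}} (t : T ⟶ SK K) (n : ℕ) (x : 𝔸.Pt t) :
    𝔸.L.nsmul t n x = x ^ n := by
  induction n with
  | zero => rfl
  | succ n ih =>
    rw [RelativeGroupLaw.nsmul_succ, ih, pow_succ]
    rfl

/-- The frozen statement from the nodes. -/
theorem result_of_nodes (K : Type u) [Field K] [IsAlgClosed K]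
    (hInt : IntNode K)
    (hC : ∀ (𝔸 : AbVar K) (g : ℕ), SmoothOfRelativeDimension g 𝔸.f → CurvesNode 𝔸 g)
    (hP : ∀ 𝔸 : AbVar K, PosNode 𝔸)
    (hQ : ∀ (𝔸 : AbVar K) (g : ℕ), SmoothOfRelativeDimension g 𝔸.f → QuadNode 𝔸)
    (hS : ∀ (𝔸 : AbVar K) (g : ℕ), SmoothOfRelativeDimension g 𝔸.f → ScaleNode 𝔸)
    (hI : ∀ 𝔸 : AbVar K, IsoNode 𝔸)
    {A : Scheme.{u}} (f : A ⟶ Spec (CommRingCat.of K))
    (L : RelativeGroupLaw K f) (hc : L.IsCommutative) (hA : AbelianSchemePropertyBundle K f)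
    (g : ℕ) [SmoothOfRelativeDimension g f] (n : ℕ) (hn : (n : K) ≠ 0) :
    Nat.card {x : SchemeHomOver (𝟙 (Spec (CommRingCat.of K))) f //
        L.IsTorsionPoint (𝟙 (Spec (CommRingCat.of K))) n x} = n ^ (2 * g) := by
  have := hA.proper
  have := hA.smooth
  have := hInt f hA
  let 𝔸 : AbVar K := { A := A, f := f, L := L, comm := hc }
  have h := card_torsion (𝔸 := 𝔸) g (hC 𝔸 g ‹_›) (hP 𝔸) (hQ 𝔸 g ‹_›) (hS 𝔸 g ‹_›) (hI 𝔸) n hn
  rw [← h]
  refine Nat.card_congr (Equiv.subtypeEquivRight fun x => ?_)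
  change L.nsmul _ n x = L.one _ ↔ _
  exact (nsmul_eq_pow (𝔸 := 𝔸) (𝟙 _) n x) ▸ Iff.rfl

end Fermat.Agent.S26
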