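/-
S26 / endgame P: the frozen statement from `QuadNode` alone (all the other nodes are proved).
Owner: helper86.
-/
import Fermat.Agent.S26.Top
import Fermat.Agent.S26.Loc.Integral
import Fermat.Agent.S26.Curves.Main
import Fermat.Agent.S26.Good.Main
import Fermat.Agent.S26.Deg.Main
import Fermat.Agent.S26.Iso.Good
import Fermat.Agent.S26.Iso.Cons
import Fermat.Agent.S26.Iso.Swap

set_option autoImplicit false

universe u

open CategoryTheory CategoryTheory.Limits AlgebraicGeometry NeronModelInfra GoodReductionJacobian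

namespace Fermat.Agent.S26

theorem isoNode {K : Type u} [Field K] (𝔸 : AbVar K) : IsoNode 𝔸 where
  deg_eq := Deg.deg_eq_of_iso
  good := iso_good
  cons := iso_cons
  swap := iso_swap

theorem result_of_quad (K : Type u) [Field K] [IsAlgClosed K]
    (hQ : ∀ (𝔸 : AbVar K) (g : ℕ), SmoothOfRelativeDimension g 𝔸.f → QuadNode 𝔸)
    {A : Scheme.{u}} (f : A ⟶ Spec (CommRingCat.of K))
    (L : RelativeGroupLaw K f) (hc : L.IsCommutative) (hA : AbelianSchemePropertyBundle K f)
    (g : ℕ) [SmoothOfRelativeDimension g f] (n : ℕ) (hn : (n : K) ≠ 0) :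
    Nat.card {x : SchemeHomOver (𝟙 (Spec (CommRingCat.of K))) f //
        L.IsTorsionPoint (𝟙 (Spec (CommRingCat.of K))) n x} = n ^ (2 * g) :=
  result_of_nodes K (Loc.intNode K)
    (fun 𝔸 g _ => Good.goodNode 𝔸 g (Curves.systemNode 𝔸 g).some)
    (fun 𝔸 => Deg.posNode 𝔸) hQ
    (fun 𝔸 g _ => Deg.scaleNode 𝔸 (Good.zmulEtaleNode 𝔸 g))
    (fun 𝔸 => isoNode 𝔸) f L hc hA g n hn

end Fermat.Agent.S26
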